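/-
S25, unit U6b: points whose coordinates are not integral reduce to the base point; there the quotient of two
monic functions of consecutive pole orders is a coordinate.
-/
import Fermat.Agent.Jac.Lat.Echelon
import Mathlib.FieldTheory.IsAlgClosed.Basic
import Mathlib.RingTheory.Valuation.ValuationSubring
import Mathlib.RingTheory.LocalRing.ResidueField.Basic

set_option autoImplicit false
set_option linter.style.haveILetI false
set_option linter.unusedSectionVars false

noncomputable section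

universe u

namespace Fermat.Agent.Jac

namespace CurveData

variable {k : Type u} [Field k] (D : CurveData k)

/-- A monic function of pole order `n`, or zero at a gap. -/
def monoN (n : ℕ) : D.A := if h : n ∈ D.gaps then 0 else D.monoA ⟨n, h⟩

theorem monoN_eq {n : ℕ} (h : n ∉ D.gaps) : D.monoN n = D.monoA ⟨n, h⟩ := dif_neg h

theorem monoN_below (n : ℕ) : Below (-(n : ℤ)) (D.emb (D.monoN n)) := by
  unfold monoN
  split_ifs with h
  · rw [map_zero]; exact below_zero_series _
  · exact D.monoA_below ⟨n, h⟩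

theorem monoN_coeff {n : ℕ} (h : n ∉ D.gaps) : (D.emb (D.monoN n)).coeff (-(n : ℤ)) = 1 := by
  rw [monoN_eq D h]
  exact D.monoA_coeff ⟨n, h⟩

theorem gapBound_pos : 0 < D.gapBound := Nat.succ_pos _

theorem below_sub_smul {n : ℕ} {f g : D.A} (hn : 0 < n) (hf : Below (-(n : ℤ)) (D.emb f))
    (hg : Below (-(n : ℤ)) (D.emb g)) (hg1 : (D.emb g).coeff (-(n : ℤ)) = 1) :
    Below (-((n - 1 : ℕ) : ℤ)) (D.emb (f - (D.emb f).coeff (-(n : ℤ)) • g)) := fun i hi => by
  rw [map_sub, map_smul, HahnSeries.coeff_sub, HahnSeries.coeff_smul, smul_eq_mul]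
  rcases eq_or_ne i (-(n : ℤ)) with rfl | hne
  · rw [hg1, mul_one, sub_self]
  · rw [hf i (by omega), hg i (by omega), mul_zero, sub_zero]

theorem eq_algebraMap_top {f : D.A} (hf : Below (-((0 : ℕ) : ℤ)) (D.emb f)) :
    f = algebraMap k D.A ((D.emb f).coeff (-((0 : ℕ) : ℤ))) := by
  obtain ⟨r, rfl⟩ := D.eq_const f fun i hi => hf i (by simpa using hi)
  congr 1
  simp [HahnSeries.algebraMap_apply]

theorem coeff_emb_mul {i j : ℕ} {f g : D.A} (hf : Below (-(i : ℤ)) (D.emb f))
    (hg : Below (-(j : ℤ)) (D.emb g)) :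
    (D.emb (f * g)).coeff (-((i + j : ℕ) : ℤ)) =
      (D.emb f).coeff (-(i : ℤ)) * (D.emb g).coeff (-(j : ℤ)) := by
  rw [map_mul, HahnSeries.coeff_mul, Finset.sum_eq_single (-(i : ℤ), -(j : ℤ))]
  · intro p hp hne
    have hp' := Finset.mem_antidiagonal.mp hp
    rcases lt_or_ge p.1 (-(i : ℤ)) with h | h
    · rw [hf _ h, zero_mul]
    · rcases lt_or_ge p.2 (-(j : ℤ)) with h' | h'
      · rw [hg _ h', mul_zero]
      · exact absurd (Prod.ext (by have := hp'.2.2; push_cast at this ⊢; omega)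
          (by have := hp'.2.2; push_cast at this ⊢; omega)) hne
  · intro h
    by_contra hne
    refine h (Finset.mem_antidiagonal.mpr ⟨?_, ?_, by push_cast; ring⟩)
    · exact left_ne_zero_of_mul hne
    · exact right_ne_zero_of_mul hne

theorem below_emb_mul {i j : ℕ} {f g : D.A} (hf : Below (-(i : ℤ)) (D.emb f))
    (hg : Below (-(j : ℤ)) (D.emb g)) : Below (-((i + j : ℕ) : ℤ)) (D.emb (f * g)) := by
  rw [map_mul]
  exact (hf.mul hg).mono (by push_cast; omega)

theorem add_notMem_gaps {i j : ℕ} (hi : i ∉ D.gaps) (hj : j ∉ D.gaps) : i + j ∉ D.gaps := fun h => by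
  have h1 := D.coeff_gap (D.monoN i * D.monoN j) _ h
    (D.below_emb_mul (D.monoN_below i) (D.monoN_below j))
  rw [D.coeff_emb_mul (D.monoN_below i) (D.monoN_below j), D.monoN_coeff hi, D.monoN_coeff hj,
    mul_one] at h1
  exact one_ne_zero h1

theorem mul_notMem_gaps {i : ℕ} (hi : i ∉ D.gaps) (j : ℕ) : j * i ∉ D.gaps := by
  induction j with
  | zero => simpa using D.zero_notMem_gaps
  | succ j ih => rw [Nat.succ_mul]; exact D.add_notMem_gaps ih hi

variable {D}
variable {K : Type u} [Field K] [Algebra k K] (R : ValuationSubring K) [Algebra k R]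
  [IsScalarTower k R K]

theorem valuation_algebraMap_le (c : k) : R.valuation (algebraMap k K c) ≤ 1 := by
  rw [IsScalarTower.algebraMap_apply k R K]
  exact R.valuation_le_one (algebraMap k R c)

theorem valuation_smul_le (c : k) (x : K) : R.valuation (c • x) ≤ R.valuation x := by
  rw [Algebra.smul_def, map_mul]
  calc R.valuation (algebraMap k K c) * R.valuation x ≤ 1 * R.valuation x :=
        mul_le_mul_left (valuation_algebraMap_le R c) _
    _ = _ := one_mul _

theorem valuation_smul_add_le {θ : K} (hθ : R.valuation θ ≤ 1) {n : ℕ} (hn : 0 < n) (c : k)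
    {x y : K} {C : R.ValueGroup} (hy : R.valuation (θ ^ n * y) ≤ C)
    (hx : R.valuation (θ ^ (n - 1) * x) ≤ C) :
    R.valuation (θ ^ n * (c • y + x)) ≤ C := by
  rw [mul_add, mul_smul_comm]
  refine (Valuation.map_add _ _ _).trans (max_le ((valuation_smul_le R c _).trans hy) ?_)
  rw [show n = (n - 1) + 1 by omega, pow_succ', mul_assoc, map_mul]
  exact (mul_le_of_le_one_left' hθ).trans hx

/-- Bounds on generators propagate to all functions. -/
theorem bound_of_small (E : D.A →ₗ[k] K) {θ : K} (hθ : R.valuation θ ≤ 1) (C : R.ValueGroup)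
    (h0 : R.valuation (E 1) ≤ C)
    (hsmall : ∀ n, 0 < n → n ≤ 2 * D.gapBound → R.valuation (θ ^ n * E (D.monoN n)) ≤ C)
    (hmul : ∀ (i j : ℕ) (f g : D.A), Below (-(i : ℤ)) (D.emb f) → Below (-(j : ℤ)) (D.emb g) → 0 < i → 0 < j →
      R.valuation (θ ^ i * E f) ≤ C → R.valuation (θ ^ j * E g) ≤ C →
      R.valuation (θ ^ (i + j) * E (f * g)) ≤ C) :
    ∀ (n : ℕ) (f : D.A), Below (-(n : ℤ)) (D.emb f) → R.valuation (θ ^ n * E f) ≤ C := by
  intro n
  induction n using Nat.strong_induction_on with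
  | _ n ih =>
    intro f hf
    rcases Nat.eq_zero_or_pos n with rfl | hn
    · rw [pow_zero, one_mul, D.eq_algebraMap_top hf, Algebra.algebraMap_eq_smul_one, map_smul]
      exact (valuation_smul_le R _ _).trans h0
    set t := (D.emb f).coeff (-(n : ℤ)) with ht
    have step : ∀ g, Below (-(n : ℤ)) (D.emb g) → (D.emb g).coeff (-(n : ℤ)) = 1 →
        R.valuation (θ ^ n * E g) ≤ C → R.valuation (θ ^ n * E f) ≤ C := fun g hg hg1 hgC => by
      have h1 := ih (n - 1) (by omega) _ (D.below_sub_smul hn hf hg hg1)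
      rw [show f = t • g + (f - t • g) by abel, map_add, map_smul]
      exact valuation_smul_add_le R hθ hn t hgC h1
    rcases le_or_gt n (2 * D.gapBound) with hle | hgt
    · by_cases hgap : n ∈ D.gaps
      · have h1 := ih (n - 1) (by omega) f fun i hi => by
          rcases eq_or_ne i (-(n : ℤ)) with rfl | hne
          · exact D.coeff_gap f n hgap fun j hj => hf j hj
          · exact hf i (by omega)
        rw [show n = (n - 1) + 1 by omega, pow_succ', mul_assoc, map_mul]
        exact (mul_le_of_le_one_left' hθ).trans h1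
      · exact step _ (D.monoN_below n) (D.monoN_coeff hgap) (hsmall n hn hle)
    · have hi := D.notMem_gaps (le_refl D.gapBound)
      have hj := D.notMem_gaps (show D.gapBound ≤ n - D.gapBound by omega)
      have hc := D.gapBound_pos
      have e : n = D.gapBound + (n - D.gapBound) := by omega
      refine step (D.monoN D.gapBound * D.monoN (n - D.gapBound)) ?_ ?_ ?_
      · conv => arg 1; rw [e]
        exact D.below_emb_mul (D.monoN_below _) (D.monoN_below _)
      · conv_lhs => arg 2; rw [e]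
        rw [D.coeff_emb_mul (D.monoN_below _) (D.monoN_below _), D.monoN_coeff hi, D.monoN_coeff hj,
          mul_one]
      · conv_lhs => arg 2; arg 1; arg 2; rw [e]
        exact hmul _ _ _ _ (D.monoN_below _) (D.monoN_below _) hc (by omega)
          (ih _ (by omega) _ (D.monoN_below _)) (ih _ (by omega) _ (D.monoN_below _))

/-- Up to smaller terms only the leading coefficient matters. -/
theorem bound_lt (E : D.A →ₗ[k] K) {θ : K} (hθ : R.valuation θ < 1) {C : R.ValueGroup}
    (hC : C ≠ 0) (h : ∀ (n : ℕ) (f : D.A), Below (-(n : ℤ)) (D.emb f) →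
      R.valuation (θ ^ n * E f) ≤ C) {n : ℕ} {f : D.A} (hf : Below (-(n : ℤ)) (D.emb f)) :
    R.valuation (θ ^ n * E f - (D.emb f).coeff (-(n : ℤ)) • (θ ^ n * E (D.monoN n))) < C := by
  set t := (D.emb f).coeff (-(n : ℤ)) with ht
  rw [← mul_smul_comm, ← mul_sub, ← map_smul, ← map_sub]
  have hb : n = 0 ∧ f - t • D.monoN n = 0 ∨
      0 < n ∧ Below (-((n - 1 : ℕ) : ℤ)) (D.emb (f - t • D.monoN n)) := by
    rcases Nat.eq_zero_or_pos n with rfl | hn
    · refine Or.inl ⟨rfl, sub_eq_zero.mpr ?_⟩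
      have e1 := D.eq_algebraMap_top (D.monoN_below 0)
      rw [D.monoN_coeff D.zero_notMem_gaps, map_one] at e1
      rw [e1, ← Algebra.algebraMap_eq_smul_one]
      exact D.eq_algebraMap_top hf
    · refine Or.inr ⟨hn, ?_⟩
      by_cases hgap : n ∈ D.gaps
      · have h0 : t = 0 := D.coeff_gap f n hgap fun j hj => hf j hj
        rw [h0, zero_smul, sub_zero]
        intro i hi
        rcases eq_or_ne i (-(n : ℤ)) with rfl | hne
        · exact h0
        · exact hf i (by omega)
      · exact D.below_sub_smul hn hf (D.monoN_below n) (D.monoN_coeff hgap)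
  rcases hb with ⟨-, h0⟩ | ⟨hn, hb⟩
  · rw [h0, map_zero, mul_zero, map_zero]
    exact zero_lt_iff.mpr hC
  · have h1 := h (n - 1) _ hb
    rw [show θ ^ n = θ * θ ^ (n - 1) by rw [← pow_succ']; congr 1; omega, mul_assoc, map_mul]
    refine lt_of_le_of_lt (mul_le_mul_right h1 _) ?_
    calc R.valuation θ * C < 1 * C := mul_lt_mul_of_pos_right hθ (zero_lt_iff.mpr hC)
      _ = C := one_mul C

/-- Reduction, extended by zero. -/
def red (x : K) : IsLocalRing.ResidueField R :=
  open Classical in if h : x ∈ R then IsLocalRing.residue R ⟨x, h⟩ else 0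

theorem red_of_mem {x : K} (h : x ∈ R) : red R x = IsLocalRing.residue R ⟨x, h⟩ := dif_pos h

theorem red_mul {x y : K} (hx : x ∈ R) (hy : y ∈ R) : red R (x * y) = red R x * red R y := by
  rw [red_of_mem R hx, red_of_mem R hy, red_of_mem R (mul_mem hx hy), ← map_mul]
  rfl

theorem red_add {x y : K} (hx : x ∈ R) (hy : y ∈ R) : red R (x + y) = red R x + red R y := by
  rw [red_of_mem R hx, red_of_mem R hy, red_of_mem R (add_mem hx hy), ← map_add]
  rfl

theorem red_one : red R (1 : K) = 1 := by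
  rw [red_of_mem R (one_mem _)]
  exact map_one _

theorem red_eq_zero_iff {x : K} (hx : x ∈ R) : red R x = 0 ↔ R.valuation x < 1 := by
  rw [red_of_mem R hx, IsLocalRing.residue_eq_zero_iff, R.valuation_lt_one_iff]

theorem red_eq_of_lt {x y : K} (hy : y ∈ R) (h : R.valuation (x - y) < 1) : red R x = red R y := by
  have hxy : x - y ∈ R := (R.valuation_le_one_iff _).mp h.le
  conv_lhs => rw [← sub_add_cancel x y]
  rw [red_add R hxy hy, (red_eq_zero_iff R hxy).mpr h, zero_add]

theorem valuation_eq_one_of_red_ne {x : K} (hx : x ∈ R) (h : red R x ≠ 0) : R.valuation x = 1 :=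
  le_antisymm ((R.valuation_le_one_iff x).mpr hx) (not_lt.mp fun hlt => h ((red_eq_zero_iff R hx).mpr hlt))

/-- A point reducing to the base point, with coordinate `τ`. -/
structure AtInfty (σ : D.A →ₐ[k] K) (τ : K) : Prop where
  lt_one : R.valuation τ < 1
  ne_zero : τ ≠ 0
  b_ne_zero : σ (D.monoN (D.gapBound + 1)) ≠ 0
  eq_mul : σ (D.monoN D.gapBound) = τ * σ (D.monoN (D.gapBound + 1))
  bound : ∀ (n : ℕ) (f : D.A), Below (-(n : ℤ)) (D.emb f) → R.valuation (τ ^ n * σ f) ≤ 1
  approx : ∀ (n : ℕ) (f : D.A), Below (-(n : ℤ)) (D.emb f) →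
    R.valuation (τ ^ n * σ f - algebraMap k K ((D.emb f).coeff (-(n : ℤ)))) < 1

theorem exists_theta [IsAlgClosed K] (σ : D.A →ₐ[k] K) (hσ : ¬ ∀ f, σ f ∈ R) :
    ∃ θ : K, R.valuation θ < 1 ∧
      (∀ (n : ℕ) (f : D.A), Below (-(n : ℤ)) (D.emb f) → R.valuation (θ ^ n * σ f) ≤ 1) ∧
      ∃ n, 0 < n ∧ n ∉ D.gaps ∧ R.valuation (θ ^ n * σ (D.monoN n)) = 1 := by
  classical
  let T := (Finset.range (2 * D.gapBound + 1)).filter
    fun n => 0 < n ∧ 1 < R.valuation (σ (D.monoN n))
  have hroot : ∀ n ∈ T, ∃ θ : K, θ ^ n * σ (D.monoN n) = 1 := fun n hn => by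
    obtain ⟨hn0, h1⟩ := (Finset.mem_filter.mp hn).2
    have hne : σ (D.monoN n) ≠ 0 := fun h => by
      rw [h, map_zero] at h1
      exact not_lt_zero h1
    obtain ⟨θ, hθ⟩ := IsAlgClosed.exists_pow_nat_eq (σ (D.monoN n))⁻¹ hn0
    exact ⟨θ, by rw [hθ, inv_mul_cancel₀ hne]⟩
  have hone : R.valuation (σ (1 : D.A)) ≤ 1 := by rw [map_one, map_one]
  have hT : T.Nonempty := by
    by_contra hT
    refine hσ fun f => ?_
    obtain ⟨e, he⟩ := exists_below (D.emb f)
    have := bound_of_small R σ.toLinearMap (θ := 1) (by rw [map_one]) 1 hone (fun n hn hle => by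
        rw [one_pow, one_mul]
        by_contra h
        exact hT ⟨n, Finset.mem_filter.mpr ⟨Finset.mem_range.mpr (by omega), hn, not_le.mp h⟩⟩)
      (fun i j f g _ _ _ _ hi hj => by
        rw [AlgHom.toLinearMap_apply] at hi hj ⊢
        rw [one_pow, one_mul] at hi hj ⊢
        rw [map_mul, map_mul]
        exact mul_le_one' hi hj) e f he
    rw [one_pow, one_mul] at this
    exact (R.valuation_le_one_iff _).mp this
  choose! θ hθ using hroot
  obtain ⟨n₀, hn₀, hmin⟩ := T.exists_min_image (fun n => R.valuation (θ n)) hT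
  have hn₀' := (Finset.mem_filter.mp hn₀).2
  have hlt : R.valuation (θ n₀) < 1 := by
    by_contra h
    have h1 := congrArg R.valuation (hθ n₀ hn₀)
    rw [map_mul, map_pow, map_one] at h1
    have h2 : R.valuation (σ (D.monoN n₀)) ≤ 1 := by
      calc R.valuation (σ (D.monoN n₀)) ≤ R.valuation (θ n₀) ^ n₀ * R.valuation (σ (D.monoN n₀)) :=
            le_mul_of_one_le_left' (one_le_pow_of_one_le' (not_lt.mp h) _)
        _ = 1 := h1
    exact absurd hn₀'.2 (not_lt.mpr h2)
  have hgap : n₀ ∉ D.gaps := fun h => by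
    have h1 := hn₀'.2
    rw [monoN, dif_pos h, map_zero, map_zero] at h1
    exact not_lt_zero h1
  refine ⟨θ n₀, hlt, fun n f hf => ?_, n₀, hn₀'.1, hgap, by rw [hθ n₀ hn₀, map_one]⟩
  refine bound_of_small R σ.toLinearMap hlt.le 1 hone (fun n hn hle => ?_) ?_ n f hf
  · rw [AlgHom.toLinearMap_apply, map_mul, map_pow]
    by_cases hmem : n ∈ T
    · have h1 := congrArg R.valuation (hθ n hmem)
      rw [map_mul, map_pow, map_one] at h1
      exact (mul_le_mul_left (pow_le_pow_left' (hmin n hmem) n) _).trans h1.le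
    · refine mul_le_one' (pow_le_one' hlt.le n) (not_lt.mp fun h => hmem ?_)
      exact Finset.mem_filter.mpr ⟨Finset.mem_range.mpr (by omega), hn, h⟩
  · intro i j f g _ _ _ _ hi hj
    rw [AlgHom.toLinearMap_apply] at hi hj ⊢
    rw [map_mul σ, pow_add, mul_mul_mul_comm, map_mul]
    exact mul_le_one' hi hj

theorem geometric_of_multiplicative {κ : Type*} [Field κ] (χ : ℕ → κ) {c : ℕ} (G : ℕ → Prop)
    (hG : ∀ n, c ≤ n → G n) (hG0 : ∀ i j, G i → G j → G (i + j)) (hG1 : G 0) (h1 : χ 0 = 1)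
    (hmul : ∀ i j, G i → G j → χ (i + j) = χ i * χ j) {n₀ : ℕ} (hn₀ : 0 < n₀) (hGn₀ : G n₀)
    (hne : χ n₀ ≠ 0) : ∃ l : κ, l ≠ 0 ∧ ∀ n, G n → χ n = l ^ n := by
  have hpow : ∀ i, G i → ∀ j, G (j * i) ∧ χ (j * i) = χ i ^ j := fun i hi j => by
    induction j with
    | zero => exact ⟨by rw [zero_mul]; exact hG1, by rw [zero_mul, pow_zero, h1]⟩
    | succ j ih =>
      rw [Nat.succ_mul]
      exact ⟨hG0 _ _ ih.1 hi, by rw [hmul _ _ ih.1 hi, ih.2, pow_succ]⟩
  have hall : ∀ m, G m → χ m ≠ 0 := fun m hm => by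
    rcases Nat.eq_zero_or_pos m with rfl | hm0
    · rw [h1]; exact one_ne_zero
    · intro h
      have e := (hpow n₀ hGn₀ m).2
      rw [mul_comm, (hpow m hm n₀).2, h, zero_pow (by omega)] at e
      exact pow_ne_zero _ hne e.symm
  have hc := hall c (hG c le_rfl)
  refine ⟨χ (c + 1) / χ c, div_ne_zero (hall _ (hG _ (by omega))) hc, ?_⟩
  set l := χ (c + 1) / χ c
  have hstep : ∀ n, c ≤ n → χ (n + 1) = l * χ n := fun n hn => by
    have e1 := hmul (n + 1) c (hG _ (by omega)) (hG c le_rfl)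
    have e2 := hmul n (c + 1) (hG n hn) (hG _ (by omega))
    rw [show n + (c + 1) = n + 1 + c by omega, e1] at e2
    rw [div_mul_eq_mul_div, eq_div_iff hc, e2, mul_comm]
  have hsh : ∀ j, χ (c + j) = l ^ j * χ c := fun j => by
    induction j with
    | zero => simp
    | succ j ih => rw [← add_assoc, hstep _ (by omega), ih, pow_succ', mul_assoc]
  have hcc : χ c = l ^ c := by
    have e := hmul c c (hG c le_rfl) (hG c le_rfl)
    rw [hsh c] at e
    exact (mul_right_cancel₀ hc e).symm
  intro n hn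
  have e := hmul n c hn (hG c le_rfl)
  rw [show n + c = c + n by omega, hsh n] at e
  exact (mul_right_cancel₀ hc e).symm

theorem linear_of_additive {κ : Type*} [AddCommGroup κ] (ψ : ℕ → κ) {c : ℕ} (G : ℕ → Prop)
    (hG : ∀ n, c ≤ n → G n) (hadd : ∀ i j, G i → G j → ψ (i + j) = ψ i + ψ j)
    (heq : ψ c = ψ (c + 1)) : ∀ n, G n → ψ n = 0 := by
  have hstep : ∀ n, c ≤ n → ψ (n + 1) = ψ n := fun n hn => by
    have e1 := hadd (n + 1) c (hG _ (by omega)) (hG c le_rfl)
    have e2 := hadd n (c + 1) (hG n hn) (hG _ (by omega))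
    rw [show n + (c + 1) = n + 1 + c by omega, e1, ← heq] at e2
    exact add_right_cancel e2
  have hsh : ∀ j, ψ (c + j) = ψ c := fun j => by
    induction j with
    | zero => simp
    | succ j ih => rw [← add_assoc, hstep _ (by omega), ih]
  intro n hn
  have e := hadd n c hn (hG c le_rfl)
  rw [add_comm n c, hsh] at e
  exact add_eq_right.mp e.symm

/-- A point with a non-integral coordinate reduces to the base point. -/
theorem exists_atInfty [IsAlgClosed K] (σ : D.A →ₐ[k] K) (hσ : ¬ ∀ f, σ f ∈ R) :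
    ∃ τ, AtInfty R σ τ := by
  classical
  obtain ⟨θ, hθ, hb, n₀, hn₀, hg₀, h₀⟩ := exists_theta R σ hσ
  have hmem : ∀ (n : ℕ) (f : D.A), Below (-(n : ℤ)) (D.emb f) → θ ^ n * σ f ∈ R := fun n f hf =>
    (R.valuation_le_one_iff _).mp (hb n f hf)
  let χ : ℕ → IsLocalRing.ResidueField R := fun n => red R (θ ^ n * σ (D.monoN n))
  let G : ℕ → Prop := fun n => n ∉ D.gaps
  have happ : ∀ {n : ℕ} {f : D.A}, Below (-(n : ℤ)) (D.emb f) →
      red R (θ ^ n * σ f) =
        red R (algebraMap k K ((D.emb f).coeff (-(n : ℤ)))) * χ n := fun {n f} hf => by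
    have h1 := bound_lt R σ.toLinearMap hθ one_ne_zero hb hf
    rw [AlgHom.toLinearMap_apply, AlgHom.toLinearMap_apply, Algebra.smul_def] at h1
    have hc : algebraMap k K ((D.emb f).coeff (-(n : ℤ))) ∈ R :=
      (R.valuation_le_one_iff _).mp (valuation_algebraMap_le R _)
    rw [red_eq_of_lt R (mul_mem hc (hmem n _ (D.monoN_below n))) h1,
      red_mul R hc (hmem n _ (D.monoN_below n))]
  have hmulχ : ∀ i j, G i → G j → χ (i + j) = χ i * χ j := fun i j hi hj => by
    have h1 := happ (D.below_emb_mul (D.monoN_below i) (D.monoN_below j))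
    rw [D.coeff_emb_mul (D.monoN_below i) (D.monoN_below j), D.monoN_coeff hi, D.monoN_coeff hj,
      mul_one, map_one, red_one, one_mul, map_mul σ, pow_add, mul_mul_mul_comm,
      red_mul R (hmem i _ (D.monoN_below i)) (hmem j _ (D.monoN_below j))] at h1
    exact h1.symm
  have h1 : χ 0 = 1 := by
    have e := D.eq_algebraMap_top (D.monoN_below 0)
    rw [D.monoN_coeff D.zero_notMem_gaps, map_one] at e
    show red R (θ ^ 0 * σ (D.monoN 0)) = 1
    rw [e, map_one, pow_zero, mul_one, red_one]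
  obtain ⟨l, hl, hχ⟩ := geometric_of_multiplicative χ (c := D.gapBound) G
    (fun n hn => D.notMem_gaps hn) (fun i j => D.add_notMem_gaps) D.zero_notMem_gaps h1 hmulχ
    hn₀ hg₀ fun h => by
      rw [red_eq_zero_iff R (hmem _ _ (D.monoN_below n₀)), h₀] at h
      exact lt_irrefl _ h
  set a := D.monoN D.gapBound
  set b := D.monoN (D.gapBound + 1)
  have hA : red R (θ ^ D.gapBound * σ a) = l ^ D.gapBound := hχ _ (D.notMem_gaps le_rfl)
  have hB : red R (θ ^ (D.gapBound + 1) * σ b) = l ^ (D.gapBound + 1) :=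
    hχ _ (D.notMem_gaps (Nat.le_succ _))
  have hAm := hmem _ _ (D.monoN_below D.gapBound)
  have hBm := hmem _ _ (D.monoN_below (D.gapBound + 1))
  have hvA := valuation_eq_one_of_red_ne R hAm (by rw [hA]; exact pow_ne_zero _ hl)
  have hvB := valuation_eq_one_of_red_ne R hBm (by rw [hB]; exact pow_ne_zero _ hl)
  have hB0 : θ ^ (D.gapBound + 1) * σ b ≠ 0 := fun h => by
    rw [show θ ^ (D.gapBound + 1) * σ (D.monoN (D.gapBound + 1)) = 0 from h, map_zero] at hvB
    exact zero_ne_one hvB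
  have hθ0 : θ ≠ 0 := fun h => by
    rw [h, zero_pow (by omega), zero_mul] at hB0
    exact hB0 rfl
  have hb0 : σ b ≠ 0 := right_ne_zero_of_mul hB0
  set ε := θ ^ D.gapBound * σ a / (θ ^ (D.gapBound + 1) * σ b) with hε
  have hτε : σ a / σ b = θ * ε := by
    rw [hε, pow_succ']
    field_simp
  have hvε : R.valuation ε = 1 := by rw [hε, map_div₀, hvA, hvB, div_one]
  have hεm : ε ∈ R := (R.valuation_le_one_iff _).mp hvε.le
  have hεl : red R ε * l = 1 := by
    have e : ε * (θ ^ (D.gapBound + 1) * σ b) = θ ^ D.gapBound * σ a := div_mul_cancel₀ _ hB0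
    have e' := congrArg (red R) e
    rw [red_mul R hεm hBm, hA, hB, pow_succ', ← mul_assoc] at e'
    exact mul_right_cancel₀ (pow_ne_zero D.gapBound hl) (e'.trans (one_mul _).symm)
  have hvτ : R.valuation (σ a / σ b) < 1 := by rw [hτε, map_mul, hvε, mul_one]; exact hθ
  refine ⟨σ a / σ b, hvτ, ?_, hb0, (div_mul_cancel₀ _ hb0).symm, fun n f hf => ?_, fun n f hf => ?_⟩
  · rw [hτε]
    refine mul_ne_zero hθ0 fun h => ?_
    rw [h, map_zero] at hvε
    exact zero_ne_one hvε
  · rw [hτε, mul_pow, mul_comm (θ ^ n), mul_assoc, map_mul, map_pow, hvε, one_pow, one_mul]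
    exact hb n f hf
  · set t := algebraMap k K ((D.emb f).coeff (-(n : ℤ)))
    have htm : t ∈ R := (R.valuation_le_one_iff _).mp (valuation_algebraMap_le R _)
    have hpm : ε ^ n ∈ R := pow_mem hεm n
    have hredp : red R (ε ^ n) = red R ε ^ n := by
      have h : ∀ m : ℕ, red R (ε ^ m) = red R ε ^ m := fun m => by
        induction m with
        | zero => rw [pow_zero, pow_zero, red_one]
        | succ m ih => rw [pow_succ, pow_succ, red_mul R (pow_mem hεm m) hεm, ih]
      exact h n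
    rw [hτε, mul_pow, mul_comm (θ ^ n), mul_assoc]
    have hxm : ε ^ n * (θ ^ n * σ f) ∈ R := mul_mem hpm (hmem n f hf)
    rw [← red_eq_zero_iff R (sub_mem hxm htm)]
    have e : red R (ε ^ n * (θ ^ n * σ f) - t) + red R t = red R (ε ^ n * (θ ^ n * σ f)) := by
      rw [← red_add R (sub_mem hxm htm) htm, sub_add_cancel]
    rw [red_mul R hpm (hmem n f hf), happ hf, hredp] at e
    by_cases hgap : n ∈ D.gaps
    · have h0 : t = 0 := by
        show algebraMap k K _ = 0
        rw [D.coeff_gap f n hgap fun j hj => hf j hj, map_zero]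
      have hz : red R (0 : K) = 0 := by rw [red_of_mem R (zero_mem _)]; exact map_zero _
      change red R (ε ^ n * (θ ^ n * σ f) - t) + red R t =
        red R ε ^ n * (red R t * χ n) at e
      rw [h0, hz, zero_mul, mul_zero, add_zero] at e
      rw [h0]
      exact e
    · rw [hχ n hgap, mul_left_comm (red R ε ^ n), ← mul_pow, hεl, one_pow, mul_one] at e
      exact add_eq_right.mp e

/-- Twisted derivations killing the coordinate at infinity vanish. -/
theorem eq_zero_of_atInfty {σ₁ σ₂ : D.A →ₐ[k] K} {τ : K} (h₁ : AtInfty R σ₁ τ)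
    (h₂ : AtInfty R σ₂ τ) (E : D.A →ₗ[k] K)
    (hE : ∀ f g, E (f * g) = σ₁ f * E g + E f * σ₂ g)
    (hab : E (D.monoN D.gapBound) = τ * E (D.monoN (D.gapBound + 1))) : E = 0 := by
  classical
  have hE1 : E 1 = 0 := by
    have := hE 1 1
    rw [mul_one, map_one σ₁, map_one σ₂, one_mul, mul_one] at this
    exact left_eq_add.mp this
  obtain ⟨n₀, hn₀, hmax⟩ := (Finset.range (2 * D.gapBound + 1)).exists_max_image
    (fun n => R.valuation (τ ^ n * E (D.monoN n))) ⟨0, Finset.mem_range.mpr (by omega)⟩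
  set μ := τ ^ n₀ * E (D.monoN n₀) with hμ
  have hb : ∀ (n : ℕ) (f : D.A), Below (-(n : ℤ)) (D.emb f) →
      R.valuation (τ ^ n * E f) ≤ R.valuation μ := by
    refine bound_of_small R E h₁.lt_one.le (R.valuation μ) ?_
      (fun n _ hn => hmax n (Finset.mem_range.mpr (by omega))) fun i j f g hf hg _ _ hi hj => ?_
    · rw [hE1, map_zero]
      exact zero_le
    · rw [hE, mul_add, pow_add]
      refine (Valuation.map_add _ _ _).trans (max_le ?_ ?_)
      · rw [show τ ^ i * τ ^ j * (σ₁ f * E g) = τ ^ i * σ₁ f * (τ ^ j * E g) by ring, map_mul]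
        exact (mul_le_of_le_one_left' (h₁.bound i f hf)).trans hj
      · rw [show τ ^ i * τ ^ j * (E f * σ₂ g) = τ ^ i * E f * (τ ^ j * σ₂ g) by ring, map_mul]
        exact (mul_le_of_le_one_right' (h₂.bound j g hg)).trans hi
  rcases eq_or_ne μ 0 with hμ0 | hμ0
  · refine LinearMap.ext fun f => ?_
    obtain ⟨e, he⟩ := exists_below (D.emb f)
    have := hb e f he
    rw [hμ0, map_zero, le_zero_iff, map_eq_zero, mul_eq_zero] at this
    exact this.resolve_left (pow_ne_zero _ h₁.ne_zero)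
  have hvμ : R.valuation μ ≠ 0 := (Valuation.ne_zero_iff _).mpr hμ0
  have hbm : ∀ (n : ℕ) (f : D.A), Below (-(n : ℤ)) (D.emb f) → τ ^ n * E f / μ ∈ R :=
    fun n f hf => (R.valuation_le_one_iff _).mp (by
      rw [map_div₀]
      exact (div_le_one₀ (zero_lt_iff.mpr hvμ)).mpr (hb n f hf))
  let ψ : ℕ → IsLocalRing.ResidueField R := fun n => red R (τ ^ n * E (D.monoN n) / μ)
  have hadd : ∀ i j, i ∉ D.gaps → j ∉ D.gaps → ψ (i + j) = ψ i + ψ j := fun i j hi hj => by
    have h1 := bound_lt R E h₁.lt_one hvμ hb (D.below_emb_mul (D.monoN_below i) (D.monoN_below j))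
    rw [D.coeff_emb_mul (D.monoN_below i) (D.monoN_below j), D.monoN_coeff hi, D.monoN_coeff hj,
      mul_one, one_smul] at h1
    set m := τ ^ (i + j) * E (D.monoN i * D.monoN j) with hm
    have e1 : red R (m / μ) = ψ (i + j) := red_eq_of_lt R (hbm _ _ (D.monoN_below _)) (by
      rw [← sub_div, map_div₀]
      exact (div_lt_one₀ (zero_lt_iff.mpr hvμ)).mpr h1)
    have hA : τ ^ i * σ₁ (D.monoN i) ∈ R :=
      (R.valuation_le_one_iff _).mp (h₁.bound i _ (D.monoN_below i))
    have hB : τ ^ j * σ₂ (D.monoN j) ∈ R :=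
      (R.valuation_le_one_iff _).mp (h₂.bound j _ (D.monoN_below j))
    have hA1 : red R (τ ^ i * σ₁ (D.monoN i)) = 1 := by
      have := h₁.approx i _ (D.monoN_below i)
      rw [D.monoN_coeff hi, map_one] at this
      rw [red_eq_of_lt R (one_mem _) this, red_one]
    have hB1 : red R (τ ^ j * σ₂ (D.monoN j)) = 1 := by
      have := h₂.approx j _ (D.monoN_below j)
      rw [D.monoN_coeff hj, map_one] at this
      rw [red_eq_of_lt R (one_mem _) this, red_one]
    have hgj := hbm j _ (D.monoN_below j)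
    have hfi := hbm i _ (D.monoN_below i)
    have e2 : m / μ = τ ^ i * σ₁ (D.monoN i) * (τ ^ j * E (D.monoN j) / μ) +
        τ ^ i * E (D.monoN i) / μ * (τ ^ j * σ₂ (D.monoN j)) := by
      rw [hm, hE, pow_add]; ring
    rw [← e1, e2, red_add R (mul_mem hA hgj) (mul_mem hfi hB), red_mul R hA hgj, red_mul R hfi hB,
      hA1, hB1, one_mul, mul_one, add_comm]
  have heq : ψ D.gapBound = ψ (D.gapBound + 1) := by
    show red R _ = red R _
    rw [hab, pow_succ, mul_assoc]
  have h0 := linear_of_additive ψ (fun n => n ∉ D.gaps) (fun n hn => D.notMem_gaps hn) hadd heq n₀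
    fun h => hμ0 (by rw [hμ, monoN, dif_pos h, map_zero, mul_zero])
  change red R (μ / μ) = 0 at h0
  rw [div_self hμ0, red_one] at h0
  exact absurd h0 one_ne_zero

end CurveData

end Fermat.Agent.Jac
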